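import Mathlib.Topology.MetricSpace.HausdorffDimension
import Mathlib.Analysis.PSeries
import Mathlib.MeasureTheory.Constructions.BorelSpace.Basic

/-!
# Simultaneous approximation: the upper bound for the dimension
-/

set_option autoImplicit false

noncomputable section

open Finset Filter Topology MeasureTheory Measure Metric
open scoped ENNReal NNReal

namespace FA.SimultaneousJarnik

variable {d : ℕ}

/-- The points with infinitely many simultaneous approximations within `q ^ (-τ)`. -/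
def approxVectors (d : ℕ) (τ : ℝ) : Set (Fin d → ℝ) :=
  {x | {q : ℕ | ∃ p : Fin d → ℤ, ∀ i, |x i - p i / q| < 1 / (q : ℝ) ^ τ}.Infinite}

theorem approxVectors_anti {τ τ' : ℝ} (h : τ ≤ τ') :
    approxVectors d τ' ⊆ approxVectors d τ := fun x hx =>
  (hx.sdiff (Set.finite_singleton 0)).mono fun q hq => by
    obtain ⟨⟨p, hp⟩, hq0⟩ := hq
    have hq1 : (1 : ℝ) ≤ q := by exact_mod_cast Nat.pos_of_ne_zero hq0
    exact ⟨p, fun i => (hp i).trans_le (by gcongr)⟩

/-- A bounded piece has measure zero in every order `s > (d + 1) / τ`. -/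
theorem hausdorffMeasure_approxVectors {τ s : ℝ} (hτ : 0 < τ)
    (hs : ((d : ℝ) + 1) / τ < s) (K : ℕ) :
    μH[s] (approxVectors d τ ∩ closedBall 0 K) = 0 := by
  have hs0 : 0 < s := lt_of_le_of_lt (by positivity) hs
  have hexp : (d : ℝ) - τ * s < -1 := by
    rw [div_lt_iff₀ hτ] at hs
    linarith [mul_comm τ s]
  set B : ℕ := K + 1 with hB
  set g : ℕ → ℝ := fun q =>
    (2 * (B : ℝ) + 1) ^ d * (2 : ℝ) ^ s * (q : ℝ) ^ ((d : ℝ) - τ * s)
  have hg : Summable g := (Real.summable_nat_rpow.2 hexp).mul_left _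
  have hg0 : ∀ q, 0 ≤ g q := fun q => by positivity
  have hne : ∑' q, ENNReal.ofReal (g q) ≠ ∞ := by
    rw [← ENNReal.ofReal_tsum_of_nonneg hg0 hg]
    exact ENNReal.ofReal_ne_top
  set t : ℕ → ℕ × (Fin d → ℕ) → Set (Fin d → ℝ) := fun n j =>
    {x | (∀ i, j.2 i < 2 * B * (n + 1 + j.1) + 1) ∧
      ∀ i, |x i - ((j.2 i : ℝ) - (B * (n + 1 + j.1) : ℕ)) / (n + 1 + j.1 : ℕ)| ≤
        1 / ((n + 1 + j.1 : ℕ) : ℝ) ^ τ}
  have hdiam : ∀ n j, ediam (t n j) ≤
      ENNReal.ofReal (2 / ((n + 1 + j.1 : ℕ) : ℝ) ^ τ) := by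
    intro n j
    refine Metric.ediam_le fun x hx y hy => ?_
    rw [edist_dist]
    refine ENNReal.ofReal_le_ofReal ((dist_pi_le_iff (by positivity)).2 fun i => ?_)
    rw [Real.dist_eq, show (2 : ℝ) / ((n + 1 + j.1 : ℕ) : ℝ) ^ τ =
      1 / ((n + 1 + j.1 : ℕ) : ℝ) ^ τ + 1 / ((n + 1 + j.1 : ℕ) : ℝ) ^ τ by ring]
    have h2 := hy.2 i
    rw [abs_sub_comm] at h2
    exact (abs_sub_le _ _ _).trans (add_le_add (hx.2 i) h2)
  have hr : Tendsto (fun n : ℕ => ENNReal.ofReal (2 / ((n + 1 : ℕ) : ℝ) ^ τ)) atTop (𝓝 0) := by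
    rw [← ENNReal.ofReal_zero]
    exact ENNReal.tendsto_ofReal (((tendsto_rpow_atTop hτ).comp
      (tendsto_natCast_atTop_atTop.comp (tendsto_add_atTop_nat 1))).const_div_atTop _)
  have hsum : ∀ n : ℕ, ∑' j, ediam (t n j) ^ s ≤
      ∑' i, ENNReal.ofReal (g (i + (n + 1))) := by
    intro n
    rw [ENNReal.tsum_prod']
    refine ENNReal.tsum_le_tsum fun k => ?_
    set q : ℕ := n + 1 + k with hq
    have hqR : (0 : ℝ) < q := by exact_mod_cast (by omega : 0 < q)
    rw [show k + (n + 1) = q by omega,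
      tsum_eq_sum (s := Fintype.piFinset fun _ : Fin d => range (2 * B * q + 1))]
    · refine (Finset.sum_le_card_nsmul _ _
        (ENNReal.ofReal ((2 / (q : ℝ) ^ τ) ^ s)) fun v _ => ?_).trans ?_
      · rw [← ENNReal.ofReal_rpow_of_nonneg (by positivity) hs0.le]
        exact ENNReal.rpow_le_rpow (hdiam n (k, v)) hs0.le
      · rw [Fintype.card_piFinset, prod_const, card_range, card_univ, Fintype.card_fin,
          nsmul_eq_mul, ← ENNReal.ofReal_natCast, ← ENNReal.ofReal_mul (by positivity)]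
        refine ENNReal.ofReal_le_ofReal ?_
        simp only [g]
        rw [Real.div_rpow (by positivity) (by positivity), ← Real.rpow_mul hqR.le,
          Real.rpow_sub hqR, Real.rpow_natCast]
        have h1 : (((2 * B * q + 1) ^ d : ℕ) : ℝ) ≤ (2 * (B : ℝ) + 1) ^ d * (q : ℝ) ^ d := by
          rw [← mul_pow]
          push_cast
          have : (1 : ℝ) ≤ q := by exact_mod_cast (by omega : 1 ≤ q)
          gcongr
          linarith
        calc (((2 * B * q + 1) ^ d : ℕ) : ℝ) * ((2 : ℝ) ^ s / (q : ℝ) ^ (τ * s))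
            ≤ ((2 * (B : ℝ) + 1) ^ d * (q : ℝ) ^ d) * ((2 : ℝ) ^ s / (q : ℝ) ^ (τ * s)) :=
              mul_le_mul_of_nonneg_right h1 (by positivity)
          _ = _ := by ring
    · intro v hv
      simp only [Fintype.mem_piFinset, mem_range] at hv
      have he : t n (k, v) = ∅ := Set.eq_empty_of_forall_notMem fun x hx => hv hx.1
      simp [he, hs0]
  have hlim : Tendsto (fun n => ∑' j, ediam (t n j) ^ s) atTop (𝓝 0) :=
    tendsto_of_tendsto_of_tendsto_of_le_of_le tendsto_const_nhds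
      ((ENNReal.tendsto_sum_nat_add _ hne).comp (tendsto_add_atTop_nat 1))
      (fun _ => zero_le) hsum
  refine le_antisymm ?_ zero_le
  rw [← hlim.liminf_eq]
  refine hausdorffMeasure_le_liminf_tsum (ι := fun _ => ℕ × (Fin d → ℕ)) s _ _ hr t
    (Eventually.of_forall fun n j => (hdiam n j).trans (ENNReal.ofReal_le_ofReal ?_))
    (Eventually.of_forall fun n x hx => ?_)
  · exact div_le_div_of_nonneg_left (by positivity) (by positivity)
      (Real.rpow_le_rpow (by positivity) (mod_cast Nat.le_add_right (n + 1) j.1) hτ.le)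
  · obtain ⟨hxA, hxK⟩ := hx
    obtain ⟨q, ⟨p, hp⟩, hq⟩ := hxA.exists_gt n
    have hqR : (1 : ℝ) ≤ q := by exact_mod_cast (by omega : 1 ≤ q)
    have hC : 1 / (q : ℝ) ^ τ ≤ 1 :=
      div_le_self zero_le_one (Real.one_le_rpow hqR hτ.le)
    have hpB : ∀ i, |p i| ≤ ((B * q : ℕ) : ℤ) := fun i => by
      have h1 : |(p i : ℝ) / q| ≤ B := by
        have := abs_sub_abs_le_abs_sub ((p i : ℝ) / q) (x i)
        rw [abs_sub_comm] at this
        have := (norm_le_pi_norm x i).trans (mem_closedBall_zero_iff.1 hxK)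
        rw [Real.norm_eq_abs] at this
        push_cast [hB]
        linarith [hp i]
      rw [abs_div, Nat.abs_cast, div_le_iff₀ (by linarith)] at h1
      exact_mod_cast h1
    obtain ⟨k, rfl⟩ := Nat.exists_eq_add_of_le (show n + 1 ≤ q by omega)
    set v : Fin d → ℕ := fun i => (p i + (B * (n + 1 + k) : ℕ)).toNat
    have hv : ∀ i, (v i : ℤ) = p i + (B * (n + 1 + k) : ℕ) := fun i =>
      Int.toNat_of_nonneg (by have := (abs_le.1 (hpB i)).1; omega)
    refine Set.mem_iUnion.2 ⟨(k, v), fun i => ?_, fun i => ?_⟩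
    · have := (abs_le.1 (hpB i)).2
      have := hv i
      simp only
      rw [mul_assoc]
      generalize B * (n + 1 + k) = P at *
      omega
    · have e : ((v i : ℕ) : ℝ) = p i + (B * (n + 1 + k) : ℕ) := by exact_mod_cast hv i
      simp only [e, add_sub_cancel_right]
      exact (hp i).le

/-- The upper bound `(d + 1) / τ`. -/
theorem dimH_approxVectors_le {τ : ℝ} (hτ : 0 < τ) :
    dimH (approxVectors d τ) ≤ ENNReal.ofReal (((d : ℝ) + 1) / τ) := by
  refine (dimH_mono (fun x hx => ?_ :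
    approxVectors d τ ⊆ ⋃ K : ℕ, approxVectors d τ ∩ closedBall 0 K)).trans ?_
  · exact Set.mem_iUnion.2 ⟨⌈‖x‖⌉₊, hx, mem_closedBall_zero_iff.2 (Nat.le_ceil ‖x‖)⟩
  rw [dimH_iUnion]
  refine iSup_le fun K => dimH_le fun c hc => le_of_not_gt fun hlt => ?_
  have h : ((d : ℝ) + 1) / τ < (c : ℝ) := by
    rw [← ENNReal.ofReal_coe_nnreal] at hlt
    exact ((ENNReal.ofReal_lt_ofReal_iff').1 hlt).1
  simp [hausdorffMeasure_approxVectors hτ h K] at hc

end FA.SimultaneousJarnik
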