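import Fermat.Agent.JarnikBesicovitch.Tree

/-!
# The children of a box

Among the vectors of fractions `p / q` in a box, `q` a prime in `(Q, 2Q]`, few are closer than
`Q ^ (-(1 + 1 / d + ε))` to another one; half of them form the children of the box.
-/

set_option autoImplicit false

noncomputable section

open Finset Filter Topology

namespace FA.SimultaneousJarnik

open FA.JarnikBesicovitch (width width_pos primeRange mem_primeRange eq_of_div_eq childCount
  eventually_card_primeRange)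

variable {d : ℕ}

/-- The vectors `p / q` with `0 < p i < q` and `q` a prime in `(Q, 2Q]`. -/
def IsVecPoint (Q : ℕ) (x : Fin d → ℝ) : Prop :=
  ∃ q ∈ primeRange Q, ∃ p : Fin d → ℕ, ∀ i, 0 < p i ∧ p i < q ∧ x i = (p i : ℝ) / q

/-- The vector of the candidate `(q, v)` in the box of centre `c`. -/
def candPoint (τ ℓ : ℝ) (Q : ℕ) (c : Fin d → ℝ) (a : ℕ × (Fin d → ℕ)) : Fin d → ℝ :=
  fun i => ((⌈(c i - ℓ + width τ Q) * a.1⌉ + a.2 i : ℤ) : ℝ) / a.1

/-- The candidates for children. -/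
def candidates (d : ℕ) (ℓ : ℝ) (Q : ℕ) : Finset (ℕ × (Fin d → ℕ)) :=
  primeRange Q ×ˢ Fintype.piFinset fun _ : Fin d => range (childCount ℓ Q)

/-- The distance kept between children. -/
def gap (d : ℕ) (ε : ℝ) (Q : ℕ) : ℝ := ((Q : ℝ) ^ (((d : ℝ) + 1) / d + ε))⁻¹

/-- The number of children. -/
def branching (d : ℕ) (ℓ : ℝ) (Q : ℕ) : ℕ := (primeRange Q).card * childCount ℓ Q ^ d / 2

/-- The conditions on a scale `Q` following a box of radius `ℓ`. -/
structure IsGoodScale (d : ℕ) (τ s ε ℓ : ℝ) (Q : ℕ) : Prop where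
  two_le : 2 ≤ Q
  large : 8 ≤ ℓ * Q
  gap_le : gap d ε Q ≤ ℓ
  gap_small : 2 * (Q : ℝ) * gap d ε Q ≤ 1
  width_le_gap : 4 * width τ Q ≤ gap d ε Q
  sparse : 2 * ((primeRange Q).card : ℝ) * (8 * gap d ε Q * (Q : ℝ) ^ 2) ^ d ≤
    (childCount ℓ Q : ℝ) ^ d
  mass : 1 ≤ (branching d ℓ Q : ℝ) * width τ Q ^ s
  many : (Q : ℝ) ^ (1 + s + (d : ℝ) * ε) ≤ branching d ℓ Q

theorem gap_pos {ε : ℝ} {Q : ℕ} (hQ : 0 < Q) : 0 < gap d ε Q :=
  inv_pos.2 (Real.rpow_pos_of_pos (Nat.cast_pos.2 hQ) _)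

namespace IsGoodScale

variable {τ s ε ℓ : ℝ} {Q : ℕ}

theorem pos (h : IsGoodScale d τ s ε ℓ Q) : 0 < Q := lt_of_lt_of_le two_pos h.two_le

theorem le_childCount (h : IsGoodScale d τ s ε ℓ Q) : ℓ * Q / 4 ≤ (childCount ℓ Q : ℝ) := by
  have := Nat.lt_floor_add_one (ℓ * Q / 2)
  have := h.large
  rw [childCount]
  linarith

theorem branching_pos (h : IsGoodScale d τ s ε ℓ Q) : 0 < branching d ℓ Q := by
  rcases Nat.eq_zero_or_pos (branching d ℓ Q) with h0 | h0
  · have := h.mass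
    rw [h0] at this
    norm_num at this
  · exact h0

theorem le_branching (h : IsGoodScale d τ s ε ℓ Q) :
    ((primeRange Q).card : ℝ) * (childCount ℓ Q : ℝ) ^ d / 4 ≤ branching d ℓ Q := by
  have h1 := h.branching_pos
  unfold branching at h1 ⊢
  generalize hn : (primeRange Q).card * childCount ℓ Q ^ d = n at h1 ⊢
  have h2 : (n : ℝ) ≤ 4 * ((n / 2 : ℕ) : ℝ) := by exact_mod_cast (by omega : n ≤ 4 * (n / 2))
  have h3 : ((primeRange Q).card : ℝ) * (childCount ℓ Q : ℝ) ^ d = n := by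
    rw [← hn]
    push_cast
    rfl
  linarith

theorem cand_bound (h : IsGoodScale d τ s ε ℓ Q) (hℓ : 0 < ℓ) (c : Fin d → ℝ)
    {a : ℕ × (Fin d → ℕ)} (ha : a ∈ candidates d ℓ Q) (i : Fin d) :
    c i - ℓ + width τ Q ≤ candPoint τ ℓ Q c a i ∧
      candPoint τ ℓ Q c a i ≤ c i + ℓ - width τ Q := by
  simp only [candidates, mem_product, Fintype.mem_piFinset, mem_range] at ha
  obtain ⟨hq, hv⟩ := ha
  obtain ⟨_, hQq, -⟩ := mem_primeRange hq
  have hqR : (Q : ℝ) < a.1 := Nat.cast_lt.2 hQq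
  have hQ0 : (0 : ℝ) < Q := Nat.cast_pos.2 h.pos
  have hw : width τ Q ≤ ℓ / 4 := by linarith [h.width_le_gap, h.gap_le]
  have h1 := Int.le_ceil ((c i - ℓ + width τ Q) * a.1)
  have h2 := Int.ceil_lt_add_one ((c i - ℓ + width τ Q) * a.1)
  have hiR : (a.2 i : ℝ) + 1 ≤ childCount ℓ Q := by exact_mod_cast hv i
  have hi0 : (0 : ℝ) ≤ a.2 i := Nat.cast_nonneg _
  have hfl : (childCount ℓ Q : ℝ) ≤ ℓ * Q / 2 := Nat.floor_le (by positivity)
  have h3 : ℓ * Q ≤ ℓ * a.1 := mul_le_mul_of_nonneg_left hqR.le hℓ.le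
  have h4 : width τ Q * a.1 ≤ ℓ / 4 * a.1 := mul_le_mul_of_nonneg_right hw (by linarith)
  simp only [candPoint]
  push_cast
  constructor
  · rw [le_div_iff₀ (by linarith)]
    linarith
  · rw [div_le_iff₀ (by linarith)]
    nlinarith

theorem dist_candPoint_le (h : IsGoodScale d τ s ε ℓ Q) (hℓ : 0 < ℓ) (c : Fin d → ℝ)
    {a : ℕ × (Fin d → ℕ)} (ha : a ∈ candidates d ℓ Q) :
    dist (candPoint τ ℓ Q c a) c ≤ ℓ - width τ Q := by
  have hw : width τ Q ≤ ℓ := by
    linarith [h.width_le_gap, h.gap_le, width_pos (τ := τ) h.pos]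
  refine (dist_pi_le_iff (sub_nonneg.2 hw)).2 fun i => ?_
  obtain ⟨h1, h2⟩ := h.cand_bound hℓ c ha i
  rw [Real.dist_eq, abs_le]
  constructor <;> linarith

theorem exists_num (h : IsGoodScale d τ s ε ℓ Q) (hℓ : 0 < ℓ) {c : Fin d → ℝ}
    (hc : ∀ i, ℓ ≤ c i ∧ c i ≤ 1 - ℓ) {a : ℕ × (Fin d → ℕ)} (ha : a ∈ candidates d ℓ Q)
    (i : Fin d) :
    ∃ p : ℕ, 0 < p ∧ p < a.1 ∧ (p : ℤ) = ⌈(c i - ℓ + width τ Q) * a.1⌉ + a.2 i := by
  have hqR : (0 : ℝ) < a.1 := Nat.cast_pos.2 (mem_primeRange (mem_product.1 ha).1).1.pos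
  have hw := width_pos (τ := τ) h.pos
  obtain ⟨h1, h2⟩ := h.cand_bound hℓ c ha i
  simp only [candPoint] at h1 h2
  set m : ℤ := ⌈(c i - ℓ + width τ Q) * a.1⌉ + a.2 i
  rw [le_div_iff₀ hqR] at h1
  rw [div_le_iff₀ hqR] at h2
  have hm0 : (0 : ℝ) < m := lt_of_lt_of_le (mul_pos (by linarith [(hc i).1]) hqR) h1
  have hm1 : (m : ℝ) < a.1 := lt_of_le_of_lt h2 (by
    calc (c i + ℓ - width τ Q) * a.1 < 1 * a.1 :=
          mul_lt_mul_of_pos_right (by linarith [(hc i).2]) hqR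
      _ = a.1 := one_mul _)
  norm_cast at hm0 hm1
  exact ⟨m.toNat, by omega, by omega, by omega⟩

theorem isVecPoint_candPoint (h : IsGoodScale d τ s ε ℓ Q) (hℓ : 0 < ℓ) {c : Fin d → ℝ}
    (hc : ∀ i, ℓ ≤ c i ∧ c i ≤ 1 - ℓ) {a : ℕ × (Fin d → ℕ)} (ha : a ∈ candidates d ℓ Q) :
    IsVecPoint Q (candPoint τ ℓ Q c a) := by
  choose p hp0 hp1 hp using fun i => h.exists_num hℓ hc ha i
  exact ⟨a.1, (mem_product.1 ha).1, p, fun i => ⟨hp0 i, hp1 i, by
    rw [candPoint, ← hp i, Int.cast_natCast]⟩⟩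

/-- Different candidates with the same denominator are apart. -/
theorem gap_le_of_eq (h : IsGoodScale d τ s ε ℓ Q) (c : Fin d → ℝ)
    {a b : ℕ × (Fin d → ℕ)} (ha : a ∈ candidates d ℓ Q) (hq : a.1 = b.1) (hne : a ≠ b) :
    gap d ε Q ≤ dist (candPoint τ ℓ Q c a) (candPoint τ ℓ Q c b) := by
  obtain ⟨i, hi⟩ : ∃ i, a.2 i ≠ b.2 i := by
    by_contra! hall
    exact hne (Prod.ext hq (funext hall))
  refine le_trans ?_ (dist_le_pi_dist _ _ i)
  obtain ⟨hp, -, hq2⟩ := mem_primeRange (mem_product.1 ha).1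
  have hqR : (0 : ℝ) < a.1 := Nat.cast_pos.2 hp.pos
  rw [Real.dist_eq, candPoint, candPoint, ← hq, ← sub_div, abs_div, abs_of_pos hqR]
  push_cast
  rw [add_sub_add_left_eq_sub, le_div_iff₀ hqR]
  have hz : (1 : ℝ) ≤ |(a.2 i : ℝ) - b.2 i| := by
    have : ((a.2 i : ℤ) - b.2 i) ≠ 0 := sub_ne_zero.2 (mod_cast hi)
    exact_mod_cast Int.one_le_abs this
  have hqle : (a.1 : ℝ) ≤ 2 * Q := by exact_mod_cast hq2
  have := mul_le_mul_of_nonneg_left hqle (gap_pos (d := d) (ε := ε) h.pos).le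
  linarith [h.gap_small]

theorem two_mul_card_bad_le (h : IsGoodScale d τ s ε ℓ Q) (hℓ : 0 < ℓ)
    {c : Fin d → ℝ} (hc : ∀ i, ℓ ≤ c i ∧ c i ≤ 1 - ℓ)
    [DecidablePred fun a => ∃ b ∈ candidates d ℓ Q, b ≠ a ∧
      dist (candPoint τ ℓ Q c a) (candPoint τ ℓ Q c b) < gap d ε Q] :
    2 * ((candidates d ℓ Q).filter fun a => ∃ b ∈ candidates d ℓ Q, b ≠ a ∧
      dist (candPoint τ ℓ Q c a) (candPoint τ ℓ Q c b) < gap d ε Q).card ≤
        (candidates d ℓ Q).card := by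
  classical
  set P := primeRange Q
  set V := Fintype.piFinset fun _ : Fin d => range (childCount ℓ Q)
  set D := gap d ε Q
  have hD : 0 < D := gap_pos h.pos
  set K : ℤ := ⌊4 * D * (Q : ℝ) ^ 2⌋ with hKdef
  have hK : 0 ≤ K := Int.floor_nonneg.2 (by positivity)
  -- the candidates with denominator `q` that are near one with denominator `q'`
  set W : ℕ × ℕ → Finset (Fin d → ℕ) := fun qq => V.filter fun v => qq.1 ≠ qq.2 ∧
    ∃ w ∈ V, dist (candPoint τ ℓ Q c (qq.1, v)) (candPoint τ ℓ Q c (qq.2, w)) < D with hW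
  have hWcard : ∀ qq ∈ P ×ˢ P, ((W qq).card : ℝ) ≤ (8 * D * (Q : ℝ) ^ 2) ^ d := by
    rintro ⟨q, q'⟩ hqq
    obtain ⟨hq, hq'⟩ := mem_product.1 hqq
    obtain ⟨hqp, hQq, hq2⟩ := mem_primeRange hq
    obtain ⟨hqp', hQq', hq2'⟩ := mem_primeRange hq'
    choose! partner hpartner using fun v (hv : v ∈ W (q, q')) => (mem_filter.1 hv).2.2
    set num : ℕ → (Fin d → ℕ) → Fin d → ℤ := fun q v i =>
      ⌈(c i - ℓ + width τ Q) * q⌉ + v i with hnum
    set key : (Fin d → ℕ) → Fin d → ℤ := fun v i =>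
      num q v i * q' - num q' (partner v) i * q with hkey
    have hmaps : ∀ v ∈ W (q, q'), key v ∈
        Fintype.piFinset fun _ : Fin d => (Finset.Icc (-K) K).erase 0 := by
      intro v hv
      obtain ⟨hvV, hne, -⟩ := mem_filter.1 hv
      obtain ⟨hwV, hdist⟩ := hpartner v hv
      have ha : (q, v) ∈ candidates d ℓ Q := mem_product.2 ⟨hq, hvV⟩
      have hb : (q', partner v) ∈ candidates d ℓ Q := mem_product.2 ⟨hq', hwV⟩
      rw [Fintype.mem_piFinset]
      intro i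
      rw [mem_erase, Finset.mem_Icc]
      obtain ⟨p, hp0, hp1, hp⟩ := h.exists_num hℓ hc ha i
      obtain ⟨p', -, -, hp'⟩ := h.exists_num hℓ hc hb i
      simp only at hp hp' hp1
      have hk : key v i = (p : ℤ) * q' - p' * q := by
        simp only [hkey, hnum, hp, hp']
      refine ⟨fun h0 => ?_, ?_⟩
      · rw [hk, sub_eq_zero] at h0
        refine hne (eq_of_div_eq hqp hqp' hp0 hp1 (p' := p') ?_).1
        rw [div_eq_div_iff (Nat.cast_ne_zero.2 hqp.ne_zero) (Nat.cast_ne_zero.2 hqp'.ne_zero)]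
        exact_mod_cast h0
      have hi := (dist_le_pi_dist _ _ i).trans_lt hdist
      simp only [candPoint, Real.dist_eq] at hi
      rw [← hp, ← hp', Int.cast_natCast, Int.cast_natCast] at hi
      have hqR : (0 : ℝ) < q := Nat.cast_pos.2 hqp.pos
      have hqR' : (0 : ℝ) < q' := Nat.cast_pos.2 hqp'.pos
      rw [div_sub_div _ _ hqR.ne' hqR'.ne', abs_div, abs_of_pos (mul_pos hqR hqR'),
        div_lt_iff₀ (mul_pos hqR hqR')] at hi
      have hbound : |(key v i : ℝ)| ≤ 4 * D * (Q : ℝ) ^ 2 := by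
        rw [hk]
        push_cast
        rw [mul_comm (p' : ℝ) q]
        refine hi.le.trans ?_
        have h1 : (q : ℝ) * q' ≤ (2 * Q) * (2 * Q) :=
          mul_le_mul (mod_cast hq2) (mod_cast hq2') hqR'.le (by positivity)
        nlinarith
      obtain ⟨b1, b2⟩ := abs_le.1 hbound
      refine ⟨?_, Int.le_floor.2 b2⟩
      rw [neg_le]
      exact Int.le_floor.2 (by push_cast; linarith)
    have hinj : ∀ v ∈ W (q, q'), ∀ v' ∈ W (q, q'), key v = key v' → v = v' := by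
      intro v hv v' hv' he
      funext i
      have hne := (mem_filter.1 hv).2.1
      have e := congrFun he i
      simp only [hkey, hnum] at e
      have e' : ((v i : ℤ) - v' i) * q' = ((partner v i : ℤ) - partner v' i) * q := by
        linear_combination e
      have hcop : IsCoprime (q : ℤ) (q' : ℤ) :=
        Nat.isCoprime_iff_coprime.2 ((Nat.coprime_primes hqp hqp').2 hne)
      have hdvd : (q : ℤ) ∣ ((v i : ℤ) - v' i) :=
        hcop.dvd_of_dvd_mul_right ⟨_, e'.trans (mul_comm _ _)⟩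
      have hlt : ∀ u ∈ V, (u i : ℝ) < q := fun u hu => by
        have h1 : (u i : ℝ) < childCount ℓ Q := by
          exact_mod_cast mem_range.1 (Fintype.mem_piFinset.1 hu i)
        have h2 : (childCount ℓ Q : ℝ) ≤ ℓ * Q / 2 := Nat.floor_le (by positivity)
        have h3 : ℓ ≤ 1 := by linarith [(hc i).1, (hc i).2]
        have h4 : (Q : ℝ) < q := Nat.cast_lt.2 hQq
        nlinarith [Nat.cast_nonneg (α := ℝ) Q]
      have l1 : v i < q := by exact_mod_cast hlt v (mem_filter.1 hv).1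
      have l2 : v' i < q := by exact_mod_cast hlt v' (mem_filter.1 hv').1
      obtain ⟨j, hj⟩ := hdvd
      have hj0 : j = 0 := by nlinarith [abs_lt.2 (⟨by omega, by omega⟩ :
        -(q : ℤ) < (v i : ℤ) - v' i ∧ (v i : ℤ) - v' i < q)]
      subst hj0
      omega
    refine (Nat.cast_le.2 (card_le_card_of_injOn key hmaps hinj)).trans ?_
    rw [Fintype.card_piFinset, prod_const, card_univ, Fintype.card_fin,
      card_erase_of_mem (Finset.mem_Icc.2 ⟨neg_nonpos.2 hK, hK⟩), Int.card_Icc]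
    push_cast
    refine pow_le_pow_left₀ (Nat.cast_nonneg _) ?_ d
    have e : ((K + 1 - -K).toNat - 1 : ℕ) = (2 * K).toNat := by omega
    rw [e]
    have e' : (((2 * K).toNat : ℕ) : ℝ) = ((2 * K : ℤ) : ℝ) := by
      exact_mod_cast Int.toNat_of_nonneg (by omega : 0 ≤ 2 * K)
    rw [e']
    push_cast
    linarith [Int.floor_le (4 * D * (Q : ℝ) ^ 2)]
  set bad := (candidates d ℓ Q).filter fun a => ∃ b ∈ candidates d ℓ Q, b ≠ a ∧
      dist (candPoint τ ℓ Q c a) (candPoint τ ℓ Q c b) < D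
  have hsub : bad ⊆ (P ×ˢ P).biUnion fun qq => (W qq).image fun v => (qq.1, v) := by
    intro a ha
    obtain ⟨haC, b, hb, hne, hdist⟩ := mem_filter.1 ha
    have hq : a.1 ≠ b.1 := fun e => absurd hdist
      (not_lt.2 (h.gap_le_of_eq c haC e hne.symm))
    obtain ⟨ha1, ha2⟩ := mem_product.1 haC
    obtain ⟨hb1, hb2⟩ := mem_product.1 hb
    refine mem_biUnion.2 ⟨(a.1, b.1), mem_product.2 ⟨ha1, hb1⟩, mem_image.2 ⟨a.2, ?_, rfl⟩⟩
    exact mem_filter.2 ⟨ha2, hq, b.2, hb2, hdist⟩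
  have hR : ((2 * bad.card : ℕ) : ℝ) ≤ ((candidates d ℓ Q).card : ℝ) := by
    have h1 : (bad.card : ℝ) ≤ ∑ qq ∈ P ×ˢ P, ((W qq).card : ℝ) := by
      exact_mod_cast (card_le_card hsub).trans
        (card_biUnion_le.trans (sum_le_sum fun qq _ => card_image_le))
    have h2 := sum_le_card_nsmul _ _ _ hWcard
    rw [card_product, nsmul_eq_mul] at h2
    rw [candidates, card_product, Fintype.card_piFinset, prod_const, card_univ,
      Fintype.card_fin, card_range]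
    push_cast at h2 ⊢
    have h3 := mul_le_mul_of_nonneg_left h.sparse (Nat.cast_nonneg (α := ℝ) P.card)
    linarith
  exact_mod_cast hR

/-- The choice of the children. -/
theorem exists_children (h : IsGoodScale d τ s ε ℓ Q) (hℓ : 0 < ℓ)
    {c : Fin d → ℝ} (hc : ∀ i, ℓ ≤ c i ∧ c i ≤ 1 - ℓ) :
    ∃ φ : Fin (branching d ℓ Q) → Fin d → ℝ, Function.Injective φ ∧
      (∀ j, IsVecPoint Q (φ j) ∧ dist (φ j) c ≤ ℓ - width τ Q) ∧
      ∀ j j', j ≠ j' → gap d ε Q ≤ dist (φ j) (φ j') := by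
  classical
  set C := candidates d ℓ Q
  set G := C.filter fun a => ¬∃ b ∈ C, b ≠ a ∧
    dist (candPoint τ ℓ Q c a) (candPoint τ ℓ Q c b) < gap d ε Q with hG
  have hcard : branching d ℓ Q ≤ G.card := by
    have h1 : 2 * (C.filter fun a => ∃ b ∈ C, b ≠ a ∧
        dist (candPoint τ ℓ Q c a) (candPoint τ ℓ Q c b) < gap d ε Q).card ≤ C.card :=
      h.two_mul_card_bad_le hℓ hc
    have h2 := Finset.card_filter_add_card_filter_not (s := C) (fun a => ∃ b ∈ C, b ≠ a ∧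
      dist (candPoint τ ℓ Q c a) (candPoint τ ℓ Q c b) < gap d ε Q)
    rw [← hG] at h2
    have h3 : C.card = (primeRange Q).card * childCount ℓ Q ^ d := by
      simp [C, candidates, Fintype.card_piFinset]
    rw [branching, ← h3]
    omega
  obtain ⟨S, hSG, hS⟩ := exists_subset_card_eq hcard
  set e : Fin (branching d ℓ Q) → ℕ × (Fin d → ℕ) := fun j =>
    (S.equivFin.symm (Fin.cast hS.symm j) : ℕ × (Fin d → ℕ))
  have heG : ∀ j, e j ∈ G := fun j => hSG (Finset.coe_mem _)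
  have heinj : Function.Injective e := fun j j' he =>
    Fin.cast_injective _ (S.equivFin.symm.injective (Subtype.ext he))
  have hsep : ∀ j j', j ≠ j' →
      gap d ε Q ≤ dist (candPoint τ ℓ Q c (e j)) (candPoint τ ℓ Q c (e j')) := by
    intro j j' hne
    by_contra! hlt
    exact (mem_filter.1 (heG j)).2 ⟨e j', (mem_filter.1 (heG j')).1,
      fun e' => hne (heinj e').symm, hlt⟩
  refine ⟨fun j => candPoint τ ℓ Q c (e j), fun j j' he => ?_, fun j => ⟨?_, ?_⟩, hsep⟩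
  · by_contra hne
    have := hsep j j' hne
    simp only at he
    rw [he, dist_self] at this
    exact absurd this (not_le.2 (gap_pos h.pos))
  · exact h.isVecPoint_candPoint hℓ hc (mem_filter.1 (heG j)).1
  · exact h.dist_candPoint_le hℓ c (mem_filter.1 (heG j)).1

end IsGoodScale

theorem eventually_isGoodScale {τ s ε ℓ : ℝ} (hd : 0 < d) (hε : 0 < ε)
    (hετ : ((d : ℝ) + 1) / d + ε ≤ τ) (hs : 0 < s) (hεs : s + (d : ℝ) * ε + ε < d)
    (hεm : τ * s + ε < (d : ℝ) + 1) (hℓ : 0 < ℓ) :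
    ∀ᶠ Q : ℕ in atTop, IsGoodScale d τ s ε ℓ Q := by
  have hdR : (0 : ℝ) < d := Nat.cast_pos.2 hd
  set σ : ℝ := ((d : ℝ) + 1) / d + ε with hσdef
  have hσd : σ * d = (d : ℝ) + 1 + (d : ℝ) * ε := by
    rw [hσdef]
    field_simp
  have hσ1 : 0 < σ - 1 := by
    have : 1 < ((d : ℝ) + 1) / d := by rw [one_lt_div hdR]; linarith
    rw [hσdef]
    linarith
  set w : ℝ := (1 / (4 * (2 : ℝ) ^ τ)) ^ s with hwdef
  have hw : 0 < w := by positivity
  set c₀ : ℝ := (ℓ / 4) ^ d / 4 with hc₀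
  have hc0 : 0 < c₀ := by positivity
  have he1 : 0 < (d : ℝ) + 1 - ε - (1 + s + (d : ℝ) * ε) := by linarith
  have he2 : 0 < (d : ℝ) + 1 - ε - τ * s := by linarith
  have he3 : 0 < (d : ℝ) * ε := mul_pos hdR hε
  have hcast := tendsto_natCast_atTop_atTop (R := ℝ)
  filter_upwards [eventually_card_primeRange hε, eventually_ge_atTop 2,
    hcast.eventually (eventually_ge_atTop (8 / ℓ)),
    ((tendsto_rpow_atTop he1).comp hcast).eventually (eventually_ge_atTop (1 / c₀)),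
    ((tendsto_rpow_atTop he2).comp hcast).eventually (eventually_ge_atTop (1 / (c₀ * w))),
    ((tendsto_rpow_atTop he3).comp hcast).eventually
      (eventually_ge_atTop (2 * 32 ^ d / ℓ ^ d)),
    ((tendsto_rpow_atTop hσ1).comp hcast).eventually (eventually_ge_atTop 2)]
    with Q hA hQ hbig h1 h2 h3 h4
  simp only [Function.comp_apply] at h1 h2 h3 h4
  have hQR : (0 : ℝ) < Q := by exact_mod_cast (by omega : 0 < Q)
  have hQ1 : (1 : ℝ) ≤ Q := by exact_mod_cast (by omega : 1 ≤ Q)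
  have hbig' : 8 ≤ ℓ * Q := by
    rw [div_le_iff₀ hℓ] at hbig
    linarith
  have hL : ℓ / 4 * Q ≤ (childCount ℓ Q : ℝ) := by
    have := Nat.lt_floor_add_one (ℓ * Q / 2)
    rw [childCount]
    linarith
  have hσpos : 0 < (Q : ℝ) ^ σ := Real.rpow_pos_of_pos hQR σ
  have hgap : 2 * (Q : ℝ) * gap d ε Q ≤ 1 := by
    rw [gap, ← div_eq_mul_inv, div_le_one hσpos, show σ = (σ - 1) + 1 by ring,
      Real.rpow_add_one hQR.ne']
    exact mul_le_mul_of_nonneg_right h4 hQR.le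
  have hN : c₀ * (Q : ℝ) ^ ((d : ℝ) + 1 - ε) ≤ branching d ℓ Q := by
    have hkey : (ℓ / 4) ^ d * (Q : ℝ) ^ ((d : ℝ) + 1 - ε) ≤
        ((primeRange Q).card : ℝ) * (childCount ℓ Q : ℝ) ^ d := by
      rw [show (d : ℝ) + 1 - ε = (1 - ε) + (d : ℝ) by ring, Real.rpow_add hQR,
        Real.rpow_natCast]
      calc (ℓ / 4) ^ d * ((Q : ℝ) ^ (1 - ε) * (Q : ℝ) ^ d)
          = (Q : ℝ) ^ (1 - ε) * (ℓ / 4 * Q) ^ d := by ring
        _ ≤ _ := mul_le_mul hA (pow_le_pow_left₀ (by positivity) hL d) (by positivity)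
            (Nat.cast_nonneg _)
    have hbig4 : 4 ≤ ((primeRange Q).card : ℝ) * (childCount ℓ Q : ℝ) ^ d := by
      refine le_trans ?_ hkey
      rw [Real.rpow_sub hQR, le_div_iff₀ (by positivity)] at h1
      rw [div_mul_eq_mul_div, div_le_iff₀ hc0, hc₀, one_mul] at h1
      have h5 : (1 : ℝ) ≤ (Q : ℝ) ^ (1 + s + (d : ℝ) * ε) :=
        Real.one_le_rpow hQ1 (by positivity)
      linarith
    rw [branching]
    generalize hn : (primeRange Q).card * childCount ℓ Q ^ d = n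
    have hn' : ((primeRange Q).card : ℝ) * (childCount ℓ Q : ℝ) ^ d = n := by
      rw [← hn]
      push_cast
      rfl
    rw [hn'] at hkey hbig4
    have h4' : 4 ≤ n := by exact_mod_cast hbig4
    have h6 : (n : ℝ) ≤ 4 * ((n / 2 : ℕ) : ℝ) := by exact_mod_cast (by omega : n ≤ 4 * (n / 2))
    rw [hc₀]
    linarith
  refine ⟨hQ, hbig', ?_, hgap, ?_, ?_, ?_, ?_⟩
  · have := gap_pos (d := d) (ε := ε) (show 0 < Q by omega)
    nlinarith
  · rw [width, mul_one_div, div_mul_eq_div_div, div_self (four_ne_zero' ℝ), one_div, gap]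
    refine inv_anti₀ hσpos (le_trans ?_ (Real.rpow_le_rpow hQR.le (by linarith) (by linarith)))
    exact Real.rpow_le_rpow_of_exponent_le hQ1 hετ
  · have hA' : ((primeRange Q).card : ℝ) ≤ Q := by
      have h := card_filter_le (Ioc Q (2 * Q)) Nat.Prime
      rw [Nat.card_Ioc, show 2 * Q - Q = Q by omega] at h
      exact_mod_cast h
    refine le_trans ?_ (pow_le_pow_left₀ (by positivity) hL d)
    have e : (gap d ε Q) ^ d * ((Q : ℝ) ^ (d + 1) * (Q : ℝ) ^ ((d : ℝ) * ε)) = 1 := by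
      rw [gap, inv_pow, ← Real.rpow_natCast ((Q : ℝ) ^ σ), ← Real.rpow_mul hQR.le, hσd,
        Real.rpow_add hQR, ← Real.rpow_natCast (Q : ℝ) (d + 1), Nat.cast_succ,
        inv_mul_cancel₀ (by positivity)]
    rw [div_le_iff₀ (pow_pos hℓ d)] at h3
    have hpos : 0 < (Q : ℝ) ^ (d + 1) * (Q : ℝ) ^ ((d : ℝ) * ε) := by positivity
    refine le_of_mul_le_mul_right ?_ hpos
    calc 2 * ((primeRange Q).card : ℝ) * (8 * gap d ε Q * (Q : ℝ) ^ 2) ^ d *
          ((Q : ℝ) ^ (d + 1) * (Q : ℝ) ^ ((d : ℝ) * ε))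
        = 2 * ((primeRange Q).card : ℝ) * 8 ^ d * (Q : ℝ) ^ (2 * d) *
          ((gap d ε Q) ^ d * ((Q : ℝ) ^ (d + 1) * (Q : ℝ) ^ ((d : ℝ) * ε))) := by
          rw [mul_pow, mul_pow, ← pow_mul]
          ring
      _ ≤ 2 * (Q : ℝ) * 8 ^ d * (Q : ℝ) ^ (2 * d) := by rw [e, mul_one]; gcongr
      _ = (2 * 32 ^ d) * ((Q : ℝ) ^ (2 * d + 1) / 4 ^ d) := by
          rw [show (32 : ℝ) = 8 * 4 by norm_num, mul_pow, pow_succ]
          field_simp
      _ ≤ (Q : ℝ) ^ ((d : ℝ) * ε) * ℓ ^ d * ((Q : ℝ) ^ (2 * d + 1) / 4 ^ d) :=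
          mul_le_mul_of_nonneg_right h3 (by positivity)
      _ = _ := by
          rw [mul_pow, div_pow, show 2 * d + 1 = d + (d + 1) by ring, pow_add]
          ring
  · have hwid : width τ Q ^ s = w * ((Q : ℝ) ^ (τ * s))⁻¹ := by
      rw [width, Real.mul_rpow two_pos.le hQR.le, ← mul_assoc, ← div_div,
        Real.div_rpow (by positivity) (by positivity), ← Real.rpow_mul hQR.le, hwdef,
        div_eq_mul_inv]
    rw [Real.rpow_sub hQR, le_div_iff₀ (by positivity), div_mul_eq_mul_div,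
      div_le_iff₀ (by positivity), one_mul] at h2
    refine le_trans ?_ (mul_le_mul_of_nonneg_right hN
      (Real.rpow_nonneg (width_pos (by omega)).le _))
    rw [hwid]
    field_simp
    linarith
  · refine le_trans ?_ hN
    rw [Real.rpow_sub hQR, le_div_iff₀ (by positivity), div_mul_eq_mul_div,
      div_le_iff₀ hc0, one_mul] at h1
    linarith

end FA.SimultaneousJarnik
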