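import Fermat.Agent.SelfSimilar.Moran
import Fermat.Agent.SimultaneousJarnik.Children
import Fermat.Agent.SimultaneousJarnik.Upper

/-!
# Simultaneous approximation: the lower bound for the dimension
-/

set_option autoImplicit false

noncomputable section

open Finset Filter Topology MeasureTheory Measure Metric
open scoped ENNReal NNReal

namespace FA.SimultaneousJarnik

open FA.JarnikBesicovitch (width width_pos primeRange mem_primeRange childCount)
open FA.DigitFrequency (digitLaw digitLaw_singleton isProbabilityMeasure_digitLaw)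

variable {d : ℕ}

/-- A separated family in a box of side `w` is small. -/
theorem card_le_of_separated {S : Finset (Fin d → ℝ)} {u : Fin d → ℝ} {w g : ℝ} (hg : 0 < g)
    (hw : 0 ≤ w) (hS : ∀ x ∈ S, ∀ i, u i ≤ x i ∧ x i ≤ u i + w)
    (hsep : ∀ x ∈ S, ∀ y ∈ S, x ≠ y → g ≤ dist x y) :
    (S.card : ℝ) ≤ (w / g + 1) ^ d := by
  set K := ⌊w / g⌋₊ + 1
  have hcard : S.card ≤ (Fintype.piFinset fun _ : Fin d => range K).card := by
    refine card_le_card_of_injOn (fun x i => ⌊(x i - u i) / g⌋₊) (fun x hx => ?_)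
      fun x hx y hy he => ?_
    · simp only [Finset.mem_coe, Fintype.mem_piFinset, mem_range]
      intro i
      refine Nat.lt_succ_of_le (Nat.floor_le_floor ?_)
      gcongr
      linarith [(hS x hx i).2]
    · by_contra hne
      have h := hsep x hx y hy hne
      refine absurd h (not_le.2 ((dist_pi_lt_iff hg).2 fun i => ?_))
      have hxu : 0 ≤ (x i - u i) / g := div_nonneg (by linarith [(hS x hx i).1]) hg.le
      have hyu : 0 ≤ (y i - u i) / g := div_nonneg (by linarith [(hS y hy i).1]) hg.le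
      have e : (⌊(x i - u i) / g⌋₊ : ℝ) = ⌊(y i - u i) / g⌋₊ := by
        exact_mod_cast congrFun he i
      have h1 := Nat.floor_le hxu
      have h2 := Nat.lt_floor_add_one ((x i - u i) / g)
      have h3 := Nat.floor_le hyu
      have h4 := Nat.lt_floor_add_one ((y i - u i) / g)
      have h5 : |(x i - u i) / g - (y i - u i) / g| < 1 := abs_lt.2 ⟨by linarith, by linarith⟩
      rwa [← sub_div, abs_div, abs_of_pos hg, div_lt_one hg, sub_sub_sub_cancel_right,
        ← Real.dist_eq] at h5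
  rw [Fintype.card_piFinset, prod_const, card_univ, Fintype.card_fin, card_range] at hcard
  refine (Nat.cast_le.2 hcard).trans ?_
  push_cast [K]
  gcongr
  exact Nat.floor_le (div_nonneg hw hg.le)

/-- The vectors of fractions with denominators prime in `(Q, 2Q]` in a box of side `w ≥ 1 / Q`. -/
theorem card_le_of_isVecPoint {S : Finset (Fin d → ℝ)} {Q : ℕ} {u : Fin d → ℝ} {w : ℝ}
    (hw : 0 ≤ w) (hwQ : 1 ≤ w * Q) (hlev : ∀ x ∈ S, IsVecPoint Q x)
    (hS : ∀ x ∈ S, ∀ i, u i ≤ x i ∧ x i ≤ u i + w) :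
    (S.card : ℝ) ≤ (primeRange Q).card * (3 * w * Q) ^ d := by
  have hsub : S ⊆ (primeRange Q).biUnion fun q : ℕ =>
      Fintype.piFinset fun i : Fin d =>
        (Finset.Icc ⌈u i * q⌉ ⌊(u i + w) * q⌋).image fun p : ℤ => (p : ℝ) / q := by
    intro x hx
    obtain ⟨q, hq, p, hp⟩ := hlev x hx
    have hq0 : (0 : ℝ) < q := Nat.cast_pos.2 (mem_primeRange hq).1.pos
    refine mem_biUnion.2 ⟨q, hq, Fintype.mem_piFinset.2 fun i => mem_image.2 ⟨p i, ?_, ?_⟩⟩
    · obtain ⟨h1, h2⟩ := hS x hx i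
      rw [(hp i).2.2] at h1 h2
      rw [Finset.mem_Icc, Int.ceil_le, Int.le_floor, Int.cast_natCast]
      rw [le_div_iff₀ hq0] at h1
      rw [div_le_iff₀ hq0] at h2
      exact ⟨h1, h2⟩
    · rw [(hp i).2.2, Int.cast_natCast]
  have hbound : ∀ q ∈ primeRange Q, ((Fintype.piFinset fun i : Fin d =>
      (Finset.Icc ⌈u i * q⌉ ⌊(u i + w) * q⌋).image fun p : ℤ => (p : ℝ) / q).card : ℝ) ≤
        (3 * w * Q) ^ d := by
    intro q hq
    rw [Fintype.card_piFinset, Nat.cast_prod]
    refine (prod_le_prod (fun i _ => Nat.cast_nonneg _) fun i _ =>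
      (?_ : _ ≤ 3 * w * (Q : ℝ))).trans_eq
      (by rw [prod_const, card_univ, Fintype.card_fin])
    refine (Nat.cast_le.2 card_image_le).trans ?_
    rw [Int.card_Icc]
    have hq2 : (q : ℝ) ≤ 2 * Q := by exact_mod_cast (mem_primeRange hq).2.2
    have h1 := Int.floor_le ((u i + w) * q)
    have h2 := Int.le_ceil (u i * q)
    have h4 : w * q ≤ w * (2 * Q) := mul_le_mul_of_nonneg_left hq2 hw
    rcases le_or_gt (⌊(u i + w) * q⌋ + 1 - ⌈u i * q⌉) 0 with h | h
    · rw [Int.toNat_of_nonpos h, Nat.cast_zero]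
      positivity
    · have e : (((⌊(u i + w) * q⌋ + 1 - ⌈u i * q⌉).toNat : ℕ) : ℝ) =
          ((⌊(u i + w) * q⌋ + 1 - ⌈u i * q⌉ : ℤ) : ℝ) := by
        exact_mod_cast Int.toNat_of_nonneg h.le
      rw [e]
      push_cast
      linarith
  refine ((Nat.cast_le (α := ℝ)).2 ((card_le_card hsub).trans card_biUnion_le)).trans ?_
  push_cast
  exact (sum_le_card_nsmul _ _ _ hbound).trans_eq (nsmul_eq_mul _ _)

/-- The parameters of the tree of boxes. -/
structure Scales (d : ℕ) (τ s ε : ℝ) where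
  /-- The radius of the boxes at each level. -/
  r : ℕ → ℝ
  /-- The denominators used at each level. -/
  Q : ℕ → ℕ
  r_zero : r 0 = 1 / 2
  r_succ : ∀ n, r (n + 1) = width τ (Q n)
  good : ∀ n, IsGoodScale d τ s ε (r n) (Q n)
  lt_Q : ∀ n, n < Q n

theorem exists_scales {τ s ε : ℝ} (hd : 0 < d) (hε : 0 < ε)
    (hετ : ((d : ℝ) + 1) / d + ε ≤ τ) (hs : 0 < s) (hεs : s + (d : ℝ) * ε + ε < d)
    (hεm : τ * s + ε < (d : ℝ) + 1) : Nonempty (Scales d τ s ε) := by
  choose F hF using fun (n : ℕ) (ℓ : {ℓ : ℝ // 0 < ℓ}) =>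
    ((eventually_isGoodScale hd hε hετ hs hεs hεm ℓ.2).and (eventually_gt_atTop n)).exists
  let R : ℕ → {ℓ : ℝ // 0 < ℓ} := fun n =>
    Nat.rec ⟨1 / 2, by norm_num⟩
      (fun n ℓ => ⟨width τ (F n ℓ), width_pos (hF n ℓ).1.pos⟩) n
  exact ⟨⟨fun n => (R n).1, fun n => F n (R n), rfl, fun n => rfl,
    fun n => (hF n (R n)).1, fun n => (hF n (R n)).2⟩⟩

namespace Scales

variable {τ s ε : ℝ} (S : Scales d τ s ε)

/-- The number of children at each level. -/
def N (n : ℕ) : ℕ := branching d (S.r n) (S.Q n)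

theorem r_pos : ∀ n, 0 < S.r n
  | 0 => by rw [S.r_zero]; norm_num
  | n + 1 => by rw [S.r_succ]; exact width_pos (S.good n).pos

open Classical in
/-- The children of a centre. -/
def child (n : ℕ) (c : Fin d → ℝ) : Fin (S.N n) → Fin d → ℝ :=
  if h : ∀ i, S.r n ≤ c i ∧ c i ≤ 1 - S.r n then
    ((S.good n).exists_children (S.r_pos n) h).choose
  else fun _ => c

theorem child_spec {n : ℕ} {c : Fin d → ℝ}
    (hc : ∀ i, S.r n ≤ c i ∧ c i ≤ 1 - S.r n) :
    Function.Injective (S.child n c) ∧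
      (∀ j, IsVecPoint (S.Q n) (S.child n c j) ∧
        dist (S.child n c j) c ≤ S.r n - width τ (S.Q n)) ∧
      ∀ j j', j ≠ j' → gap d ε (S.Q n) ≤ dist (S.child n c j) (S.child n c j') := by
  rw [child, dif_pos hc]
  exact ((S.good n).exists_children (S.r_pos n) hc).choose_spec

/-- The centre of level `n` on a path. -/
def centre (ω : ∀ n, Fin (S.N n)) : ℕ → Fin d → ℝ
  | 0 => fun _ => 1 / 2
  | n + 1 => S.child n (centre ω n) (ω n)

/-- The finitely many centres of level `n`. -/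
def level : ℕ → Finset (Fin d → ℝ)
  | 0 => {fun _ => 1 / 2}
  | n + 1 => (level n).biUnion fun c => univ.image (S.child n c)

theorem centre_mem_level (ω : ∀ n, Fin (S.N n)) : ∀ n, S.centre ω n ∈ S.level n
  | 0 => mem_singleton_self _
  | n + 1 => mem_biUnion.2 ⟨_, centre_mem_level ω n, mem_image.2 ⟨ω n, mem_univ _, rfl⟩⟩

theorem inside (ω : ∀ n, Fin (S.N n)) :
    ∀ n i, S.r n ≤ S.centre ω n i ∧ S.centre ω n i ≤ 1 - S.r n
  | 0, i => by rw [centre, S.r_zero]; norm_num
  | n + 1, i => by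
    have h := ((S.child_spec (inside ω n)).2.1 (ω n)).2
    have h' := abs_le.1 ((Real.dist_eq _ _).symm.trans_le ((dist_le_pi_dist _ _ i).trans h))
    obtain ⟨h1, h2⟩ := inside ω n i
    rw [S.r_succ, centre]
    constructor <;> linarith

theorem dist_centre_add (ω : ∀ n, Fin (S.N n)) (n : ℕ) :
    ∀ j, dist (S.centre ω (n + j)) (S.centre ω n) ≤ S.r n - S.r (n + j)
  | 0 => by simp
  | j + 1 => by
    have h1 := dist_centre_add ω n j
    have h2 := ((S.child_spec (S.inside ω (n + j))).2.1 (ω (n + j))).2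
    rw [← add_assoc, S.r_succ, centre]
    refine (dist_triangle _ (S.centre ω (n + j)) _).trans ?_
    linarith

theorem gap_le_of_separated (ω η : ∀ n, Fin (S.N n)) {n : ℕ}
    (ih : S.centre ω n ≠ S.centre η n → 4 * S.r n ≤ dist (S.centre ω n) (S.centre η n))
    (hne : S.centre ω (n + 1) ≠ S.centre η (n + 1)) :
    gap d ε (S.Q n) ≤ dist (S.centre ω (n + 1)) (S.centre η (n + 1)) := by
  obtain ⟨-, hω, hsep⟩ := S.child_spec (S.inside ω n)
  by_cases he : S.centre ω n = S.centre η n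
  · have e : S.centre η (n + 1) = S.child n (S.centre ω n) (η n) := by rw [centre, he]
    rw [e, centre] at hne ⊢
    exact hsep _ _ fun h' => hne (by rw [h'])
  · have hη := ((S.child_spec (S.inside η n)).2.1 (η n)).2
    have h1 := (hω (ω n)).2
    have h4 := ih he
    rw [← centre] at h1 hη
    have h5 := dist_triangle4 (S.centre ω n) (S.centre ω (n + 1)) (S.centre η (n + 1))
      (S.centre η n)
    rw [dist_comm (S.centre ω n) (S.centre ω (n + 1))] at h5
    linarith [(S.good n).gap_le, width_pos (τ := τ) (S.good n).pos, S.r_pos n]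

/-- Different centres of one level are apart, and equal ones have the same path. -/
theorem separated (ω η : ∀ n, Fin (S.N n)) : ∀ n,
    (S.centre ω n = S.centre η n → ∀ i < n, ω i = η i) ∧
      (S.centre ω n ≠ S.centre η n → 4 * S.r n ≤ dist (S.centre ω n) (S.centre η n))
  | 0 => ⟨fun _ i hi => absurd hi (Nat.not_lt_zero i), fun h => absurd rfl h⟩
  | n + 1 => by
    obtain ⟨ih1, ih2⟩ := separated ω η n
    refine ⟨fun h i hi => ?_, fun h => by
      rw [S.r_succ]
      exact (S.good n).width_le_gap.trans (S.gap_le_of_separated ω η ih2 h)⟩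
    obtain ⟨hinj, -, -⟩ := S.child_spec (S.inside ω n)
    have he : S.centre ω n = S.centre η n := by
      by_contra he
      obtain ⟨-, hω, -⟩ := S.child_spec (S.inside ω n)
      have hη := ((S.child_spec (S.inside η n)).2.1 (η n)).2
      have h1 := (hω (ω n)).2
      rw [← centre] at h1 hη
      rw [← h] at hη
      rw [dist_comm] at h1
      linarith [ih2 he, dist_triangle (S.centre ω n) (S.centre ω (n + 1)) (S.centre η n),
        width_pos (τ := τ) (S.good n).pos, S.r_pos n]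
    rcases Nat.lt_succ_iff_lt_or_eq.1 hi with hi | rfl
    · exact ih1 he i hi
    · rw [centre, centre, ← he] at h
      exact hinj h

theorem gap_le_dist (ω η : ∀ n, Fin (S.N n)) {n : ℕ}
    (hne : S.centre ω (n + 1) ≠ S.centre η (n + 1)) :
    gap d ε (S.Q n) ≤ dist (S.centre ω (n + 1)) (S.centre η (n + 1)) :=
  S.gap_le_of_separated ω η (S.separated ω η n).2 hne

theorem r_succ_le (n : ℕ) : S.r (n + 1) ≤ S.r n / 4 := by
  rw [S.r_succ]
  linarith [(S.good n).width_le_gap, (S.good n).gap_le]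

theorem tendsto_r : Tendsto S.r atTop (𝓝 0) := by
  refine squeeze_zero (fun n => (S.r_pos n).le) (fun n => ?_)
    (by simpa using (tendsto_pow_atTop_nhds_zero_of_lt_one (by norm_num : (0 : ℝ) ≤ 1 / 4)
      (by norm_num)).const_mul (1 / 2 : ℝ))
  induction n with
  | zero => rw [S.r_zero]; norm_num
  | succ n ih =>
    rw [pow_succ, mul_inv, ← mul_assoc]
    linarith [S.r_succ_le n]

theorem exists_limit (ω : ∀ n, Fin (S.N n)) :
    ∃ x, ∀ n, dist x (S.centre ω n) ≤ S.r n := by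
  have hle : ∀ m k, m ≤ k → dist (S.centre ω k) (S.centre ω m) ≤ S.r m := fun m k hk => by
    obtain ⟨j, rfl⟩ := Nat.exists_eq_add_of_le hk
    linarith [S.dist_centre_add ω m j, S.r_pos (m + j)]
  obtain ⟨x, hx⟩ := cauchySeq_tendsto_of_complete (u := S.centre ω)
    (cauchySeq_of_le_tendsto_0' S.r (fun m k hk => by
      rw [dist_comm]
      exact hle m k hk) S.tendsto_r)
  exact ⟨x, fun n => le_of_tendsto (hx.dist tendsto_const_nhds)
    (eventually_atTop.2 ⟨n, fun k hk => hle n k hk⟩)⟩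

theorem limit_mem (hτ : 0 ≤ τ) {ω : ∀ n, Fin (S.N n)} {x : Fin d → ℝ}
    (hx : ∀ n, dist x (S.centre ω n) ≤ S.r n) : x ∈ approxVectors d τ := by
  refine Set.infinite_of_forall_exists_gt fun n => ?_
  obtain ⟨q, hq, p, hp⟩ := ((S.child_spec (S.inside ω n)).2.1 (ω n)).1
  obtain ⟨hqp, hQq, hq2⟩ := mem_primeRange hq
  refine ⟨q, ⟨fun i => (p i : ℤ), fun i => ?_⟩, (S.lt_Q n).trans hQq⟩
  have h := (dist_le_pi_dist _ _ i).trans (hx (n + 1))
  rw [centre, (hp i).2.2, Real.dist_eq, S.r_succ, width] at h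
  rw [Int.cast_natCast]
  have hq0 : (0 : ℝ) < q := Nat.cast_pos.2 hqp.pos
  refine h.trans_lt (one_div_lt_one_div_of_lt (Real.rpow_pos_of_pos hq0 τ) ?_)
  have h3 : (q : ℝ) ^ τ ≤ (2 * (S.Q n : ℝ)) ^ τ :=
    Real.rpow_le_rpow hq0.le (mod_cast hq2) hτ
  linarith [Real.rpow_pos_of_pos hq0 τ]

/-- The product of the first `n` branching numbers. -/
def pathCount (n : ℕ) : ℝ := ∏ i ∈ range n, (S.N i : ℝ)

theorem one_le_pathCount (n : ℕ) : 1 ≤ S.pathCount n :=
  one_le_prod fun i _ => by exact_mod_cast (S.good i).branching_pos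

theorem mass_le (hsd : s ≤ d) : ∀ n, (1 / 2 : ℝ) ^ d ≤ S.r n ^ s * S.pathCount n
  | 0 => by
    rw [S.r_zero, pathCount, range_zero, prod_empty, mul_one, ← Real.rpow_natCast]
    exact Real.rpow_le_rpow_of_exponent_ge (by norm_num) (by norm_num) hsd
  | n + 1 => by
    rw [pathCount, prod_range_succ, ← pathCount, S.r_succ]
    calc (1 / 2 : ℝ) ^ d ≤ 1 * 1 := by
          rw [one_mul]
          exact pow_le_one₀ (by norm_num) (by norm_num)
      _ ≤ S.pathCount n * ((S.N n : ℝ) * width τ (S.Q n) ^ s) :=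
          mul_le_mul (S.one_le_pathCount n) (S.good n).mass zero_le_one
            (zero_le_one.trans (S.one_le_pathCount n))
      _ = _ := by ring

/-- The uniform law on paths. -/
def law : Measure (∀ n, Fin (S.N n)) :=
  Measure.infinitePi fun n => digitLaw fun _ : Fin (S.N n) => 1 / (S.N n : ℝ)

theorem isProbabilityMeasure_level (n : ℕ) :
    IsProbabilityMeasure (digitLaw fun _ : Fin (S.N n) => 1 / (S.N n : ℝ)) :=
  isProbabilityMeasure_digitLaw (fun _ => by positivity) (by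
    rw [sum_const, card_univ, Fintype.card_fin, nsmul_eq_mul,
      mul_one_div_cancel (Nat.cast_ne_zero.2 (S.good n).branching_pos.ne')])

theorem law_univ : S.law Set.univ = 1 := by
  have := S.isProbabilityMeasure_level
  have : IsProbabilityMeasure S.law := by unfold law; infer_instance
  exact measure_univ

theorem law_cylinder (ω : ∀ n, Fin (S.N n)) (n : ℕ) :
    S.law {η | ∀ i < n, η i = ω i} = ENNReal.ofReal (1 / S.pathCount n) := by
  have := S.isProbabilityMeasure_level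
  have hset : {η : ∀ n, Fin (S.N n) | ∀ i < n, η i = ω i} =
      Set.pi (↑(range n)) (fun i => {ω i}) := by
    ext η
    simp [Set.mem_pi]
  rw [hset, law, Measure.infinitePi_pi _ fun i _ => MeasurableSet.singleton (ω i), pathCount,
    one_div, ← prod_inv_distrib, ENNReal.ofReal_prod_of_nonneg fun i _ => by positivity]
  exact prod_congr rfl fun i _ => by rw [digitLaw_singleton, one_div]

/-- At most `4 · 96 ^ d δ ^ s` of the mass is within `δ` of a point. -/
theorem law_preimage_le (hd : 0 < d) (hs : 0 < s) (hsd : s < d)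
    {g : (∀ n, Fin (S.N n)) → Fin d → ℝ} (hg : ∀ ω n, dist (g ω) (S.centre ω n) ≤ S.r n)
    (t : Set (Fin d → ℝ)) (δ : ℝ) (hδ : 0 < δ) (ht : ∀ x ∈ t, ∀ y ∈ t, dist x y ≤ δ) :
    S.law (g ⁻¹' t) ≤ ENNReal.ofReal (4 * 96 ^ d * δ ^ s) := by
  classical
  have hC : (2 : ℝ) ^ d ≤ 4 * 96 ^ d := by
    have : (2 : ℝ) ^ d ≤ 96 ^ d := pow_le_pow_left₀ (by norm_num) (by norm_num) d
    linarith [pow_pos (show (0 : ℝ) < 96 by norm_num) d]
  rcases le_or_gt (1 / 2) δ with hbigδ | hsmallδ
  · refine (measure_mono (Set.subset_univ _)).trans (S.law_univ.le.trans ?_)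
    rw [← ENNReal.ofReal_one]
    refine ENNReal.ofReal_le_ofReal ?_
    have h1 : (1 / 2 : ℝ) ^ d ≤ δ ^ s := by
      refine le_trans ?_ (Real.rpow_le_rpow (by norm_num) hbigδ hs.le)
      rw [← Real.rpow_natCast]
      exact Real.rpow_le_rpow_of_exponent_ge (by norm_num) (by norm_num) hsd.le
    calc (1 : ℝ) = 2 ^ d * (1 / 2) ^ d := by rw [← mul_pow]; norm_num
      _ ≤ _ := mul_le_mul hC h1 (by positivity) (by positivity)
  have hex : ∃ m, S.r m ≤ δ := (S.tendsto_r.eventually (eventually_le_nhds hδ)).exists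
  obtain ⟨n, hn⟩ : ∃ n, Nat.find hex = n + 1 := Nat.exists_eq_succ_of_ne_zero fun h => by
    have h0 := Nat.find_spec hex
    rw [h, S.r_zero] at h0
    linarith
  have hδ1 : S.r (n + 1) ≤ δ := hn ▸ Nat.find_spec hex
  have hδ2 : δ < S.r n := not_le.1 (Nat.find_min hex (by omega))
  rcases Set.eq_empty_or_nonempty (g ⁻¹' t) with h0 | ⟨ω₀, hω₀⟩
  · simp [h0]
  set P := (S.level (n + 1)).filter fun c => ∃ ω ∈ g ⁻¹' t, S.centre ω (n + 1) = c with hP
  have hwin : ∀ c ∈ P, ∀ i, g ω₀ i - 2 * δ ≤ c i ∧ c i ≤ g ω₀ i - 2 * δ + 4 * δ := by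
    intro c hc i
    obtain ⟨ω, hω, rfl⟩ := (mem_filter.1 hc).2
    have h1 := (dist_le_pi_dist _ _ i).trans (hg ω (n + 1))
    have h2 := (dist_le_pi_dist _ _ i).trans (ht _ hω _ hω₀)
    rw [Real.dist_eq, abs_le] at h1 h2
    constructor <;> linarith [h1.1, h1.2, h2.1, h2.2]
  have hlev : ∀ c ∈ P, IsVecPoint (S.Q n) c := fun c hc => by
    obtain ⟨ω, -, rfl⟩ := (mem_filter.1 hc).2
    exact ((S.child_spec (S.inside ω n)).2.1 (ω n)).1
  have hsep : ∀ c ∈ P, ∀ c' ∈ P, c ≠ c' → gap d ε (S.Q n) ≤ dist c c' := fun c hc c' hc' hne => by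
    obtain ⟨ω, -, rfl⟩ := (mem_filter.1 hc).2
    obtain ⟨η, -, rfl⟩ := (mem_filter.1 hc').2
    exact S.gap_le_dist ω η hne
  have hδs : 0 ≤ δ ^ s := Real.rpow_nonneg hδ.le s
  have hQ : (0 : ℝ) < S.Q n := Nat.cast_pos.2 (S.good n).pos
  have hPn : S.pathCount (n + 1) = S.pathCount n * S.N n := prod_range_succ _ _
  have h1Pn := S.one_le_pathCount n
  have hPcard : (P.card : ℝ) ≤ 4 * 96 ^ d * δ ^ s * S.pathCount (n + 1) := by
    rcases le_or_gt 1 (4 * δ * S.Q n) with hbig | hsmall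
    · refine (card_le_of_isVecPoint (by linarith) hbig hlev hwin).trans ?_
      have hδd : δ ^ d ≤ δ ^ s * (2 ^ d * (S.r n ^ d * S.pathCount n)) := by
        have e : δ ^ d = δ ^ s * δ ^ ((d : ℝ) - s) := by
          rw [← Real.rpow_add hδ, add_sub_cancel, Real.rpow_natCast]
        rw [e]
        refine mul_le_mul_of_nonneg_left ?_ hδs
        have hm := S.mass_le hsd.le n
        have hm' : 1 ≤ 2 ^ d * (S.r n ^ s * S.pathCount n) := by
          calc (1 : ℝ) = 2 ^ d * (1 / 2) ^ d := by rw [← mul_pow]; norm_num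
            _ ≤ _ := mul_le_mul_of_nonneg_left hm (by positivity)
        calc δ ^ ((d : ℝ) - s) ≤ S.r n ^ ((d : ℝ) - s) :=
              Real.rpow_le_rpow hδ.le hδ2.le (by linarith)
          _ ≤ S.r n ^ ((d : ℝ) - s) * (2 ^ d * (S.r n ^ s * S.pathCount n)) :=
              le_mul_of_one_le_right (Real.rpow_nonneg (S.r_pos n).le _) hm'
          _ = 2 ^ d * (S.r n ^ ((d : ℝ) - s) * S.r n ^ s * S.pathCount n) := by ring
          _ = _ := by rw [← Real.rpow_add (S.r_pos n), sub_add_cancel, Real.rpow_natCast]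
      have hN := (S.good n).le_branching
      have hL : (S.r n * S.Q n / 4) ^ d ≤ (childCount (S.r n) (S.Q n) : ℝ) ^ d :=
        pow_le_pow_left₀ (by have := S.r_pos n; positivity) (S.good n).le_childCount d
      calc ((primeRange (S.Q n)).card : ℝ) * (3 * (4 * δ) * S.Q n) ^ d
          = ((primeRange (S.Q n)).card : ℝ) * 12 ^ d * (S.Q n : ℝ) ^ d * δ ^ d := by
            rw [show 3 * (4 * δ) * (S.Q n : ℝ) = 12 * (S.Q n : ℝ) * δ by ring, mul_pow, mul_pow]
            ring
        _ ≤ ((primeRange (S.Q n)).card : ℝ) * 12 ^ d * (S.Q n : ℝ) ^ d *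
            (δ ^ s * (2 ^ d * (S.r n ^ d * S.pathCount n))) :=
            mul_le_mul_of_nonneg_left hδd (by positivity)
        _ = 4 * 96 ^ d * δ ^ s * S.pathCount n *
            (((primeRange (S.Q n)).card : ℝ) * (S.r n * S.Q n / 4) ^ d / 4) := by
            rw [div_pow, mul_pow, show (96 : ℝ) = 12 * 2 * 4 by norm_num, mul_pow, mul_pow]
            field_simp
        _ ≤ 4 * 96 ^ d * δ ^ s * S.pathCount n * (S.N n : ℝ) := by
            refine mul_le_mul_of_nonneg_left (le_trans ?_ hN)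
              (mul_nonneg (by positivity) (zero_le_one.trans h1Pn))
            exact div_le_div_of_nonneg_right
              (mul_le_mul_of_nonneg_left hL (Nat.cast_nonneg _)) four_pos.le
        _ = _ := by rw [hPn]; ring
    · have hgap := gap_pos (d := d) (ε := ε) (S.good n).pos
      refine (card_le_of_separated hgap (by linarith) hwin hsep).trans ?_
      have hδQ : δ ≤ (S.Q n : ℝ)⁻¹ := by
        rw [← mul_le_mul_iff_of_pos_right hQ, inv_mul_cancel₀ hQ.ne']
        linarith [mul_pos hδ hQ]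
      have hmany : (δ / gap d ε (S.Q n)) ^ d ≤ δ ^ s * S.N n := by
        refine le_trans ?_ (mul_le_mul_of_nonneg_left (S.good n).many hδs)
        have hdR : (0 : ℝ) < d := Nat.cast_pos.2 hd
        have e : δ ^ d = δ ^ s * δ ^ ((d : ℝ) - s) := by
          rw [← Real.rpow_add hδ, add_sub_cancel, Real.rpow_natCast]
        rw [gap, div_inv_eq_mul, mul_pow, e, mul_assoc, ← Real.rpow_natCast ((S.Q n : ℝ) ^ _),
          ← Real.rpow_mul hQ.le]
        refine mul_le_mul_of_nonneg_left ((mul_le_mul_of_nonneg_right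
          (Real.rpow_le_rpow hδ.le hδQ (by linarith : (0 : ℝ) ≤ (d : ℝ) - s))
          (Real.rpow_nonneg hQ.le _)).trans_eq ?_) hδs
        rw [Real.inv_rpow hQ.le, ← Real.rpow_neg hQ.le, ← Real.rpow_add hQ]
        congr 1
        field_simp
        ring
      have hone : 1 ≤ δ ^ s * S.N n := by
        refine (S.good n).mass.trans ?_
        rw [mul_comm, ← N]
        refine mul_le_mul_of_nonneg_right (Real.rpow_le_rpow ?_ ?_ hs.le) (Nat.cast_nonneg _)
        · exact (width_pos (S.good n).pos).le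
        · rwa [← S.r_succ]
      set X := δ ^ s * (S.N n : ℝ) with hX
      have hw : 0 ≤ 4 * δ / gap d ε (S.Q n) := by positivity
      calc (4 * δ / gap d ε (S.Q n) + 1) ^ d
          ≤ 2 ^ (d - 1) * ((4 * δ / gap d ε (S.Q n)) ^ d + 1 ^ d) :=
            add_pow_le hw zero_le_one d
        _ = 2 ^ (d - 1) * (4 ^ d * (δ / gap d ε (S.Q n)) ^ d + 1) := by
            rw [one_pow, mul_div_assoc, mul_pow]
        _ ≤ 2 ^ d * (4 ^ d * X + X) := by
            gcongr
            · exact one_le_two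
            · omega
        _ ≤ 2 * 8 ^ d * X := by
            have h4 : (1 : ℝ) ≤ 4 ^ d := one_le_pow₀ (by norm_num)
            have hX0 : 0 ≤ X := zero_le_one.trans hone
            calc (2 : ℝ) ^ d * (4 ^ d * X + X) ≤ 2 ^ d * (4 ^ d * X + 4 ^ d * X) := by
                  gcongr
                  exact le_mul_of_one_le_left hX0 h4
              _ = _ := by rw [show (8 : ℝ) = 2 * 4 by norm_num, mul_pow]; ring
        _ ≤ 4 * 96 ^ d * X := by
            gcongr <;> norm_num
        _ ≤ 4 * 96 ^ d * X * S.pathCount n :=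
            le_mul_of_one_le_right (mul_nonneg (by positivity) (zero_le_one.trans hone)) h1Pn
        _ = _ := by rw [hPn, hX]; ring
  have hcov : g ⁻¹' t ⊆ ⋃ c ∈ P, {ω | S.centre ω (n + 1) = c} := fun ω hω =>
    Set.mem_iUnion₂.2 ⟨_, mem_filter.2 ⟨S.centre_mem_level ω _, ω, hω, rfl⟩, rfl⟩
  refine ((measure_mono hcov).trans (measure_biUnion_finset_le _ _)).trans ?_
  refine (sum_le_card_nsmul _ _ (ENNReal.ofReal (1 / S.pathCount (n + 1)))
    fun c hc => ?_).trans ?_
  · obtain ⟨ω, -, rfl⟩ := (mem_filter.1 hc).2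
    rw [← S.law_cylinder ω (n + 1)]
    exact measure_mono fun η hη => (S.separated η ω (n + 1)).1 hη
  rw [nsmul_eq_mul, ← ENNReal.ofReal_natCast, ← ENNReal.ofReal_mul (Nat.cast_nonneg _)]
  refine ENNReal.ofReal_le_ofReal ?_
  rw [mul_one_div, div_le_iff₀ (zero_lt_one.trans_le (S.one_le_pathCount _))]
  exact hPcard

end Scales

theorem hausdorffMeasure_approxVectors_ne_zero {τ s ε : ℝ} (hd : 0 < d) (hε : 0 < ε)
    (hετ : ((d : ℝ) + 1) / d + ε ≤ τ) (hs : 0 < s) (hεs : s + (d : ℝ) * ε + ε < d)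
    (hεm : τ * s + ε < (d : ℝ) + 1) : μH[s] (approxVectors d τ) ≠ 0 := by
  obtain ⟨S⟩ := exists_scales hd hε hετ hs hεs hεm
  have hτ : 0 ≤ τ := le_trans (by positivity) hετ
  have hsd : s < d := by
    have := mul_nonneg (Nat.cast_nonneg (α := ℝ) d) hε.le
    linarith
  choose g hg using S.exists_limit
  exact SelfSimilar.hausdorffMeasure_ne_zero_of_mass S.law g hs (C := 4 * 96 ^ d) (by positivity)
    (by rw [S.law_univ]; exact one_ne_zero) (fun ω => S.limit_mem hτ (hg ω))
    fun t δ hδ _ ht => S.law_preimage_le hd hs hsd hg t δ hδ ht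

theorem le_dimH_approxVectors {τ : ℝ} (hd : 0 < d) (hτ : ((d : ℝ) + 1) / d ≤ τ) :
    ENNReal.ofReal (((d : ℝ) + 1) / τ) ≤ dimH (approxVectors d τ) := by
  have hdR : (0 : ℝ) < d := Nat.cast_pos.2 hd
  have hτ0 : 0 < τ := lt_of_lt_of_le (by positivity) hτ
  refine le_of_forall_lt_imp_le_of_dense fun c hc => ?_
  lift c to ℝ≥0 using hc.ne_top
  rcases eq_or_ne c 0 with rfl | hc0
  · exact zero_le
  have hc1 : (0 : ℝ) < c := NNReal.coe_pos.2 (pos_iff_ne_zero.2 hc0)
  rw [← ENNReal.ofReal_coe_nnreal, ENNReal.ofReal_lt_ofReal_iff', lt_div_iff₀ hτ0] at hc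
  set τ' : ℝ := (((d : ℝ) + 1) / c + τ) / 2 with hτ'
  have hdiv : τ < ((d : ℝ) + 1) / c := by
    rw [lt_div_iff₀ hc1]
    linarith [hc.1]
  have h1 : τ < τ' := by linarith
  have h2 : τ' * c < (d : ℝ) + 1 := by
    rw [← lt_div_iff₀ hc1]
    linarith
  have h3 : (c : ℝ) < d := by
    have h := mul_le_mul_of_nonneg_left hτ hc1.le
    rw [← mul_div_assoc] at h
    have h4 := h.trans_lt hc.1
    rw [div_lt_iff₀ hdR] at h4
    nlinarith
  set ε : ℝ := min (min (τ' - τ) (((d : ℝ) + 1 - τ' * c) / 2))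
    (((d : ℝ) - c) / (2 * ((d : ℝ) + 1))) with hε
  have hε0 : 0 < ε := lt_min (lt_min (by linarith) (by linarith))
    (div_pos (by linarith) (by positivity))
  have e1 : ε ≤ τ' - τ := (min_le_left _ _).trans (min_le_left _ _)
  have e2 : ε ≤ ((d : ℝ) + 1 - τ' * c) / 2 := (min_le_left _ _).trans (min_le_right _ _)
  have e3 : ε ≤ ((d : ℝ) - c) / (2 * ((d : ℝ) + 1)) := min_le_right _ _
  rw [le_div_iff₀ (by positivity)] at e3
  refine (le_dimH_of_hausdorffMeasure_ne_zero (hausdorffMeasure_approxVectors_ne_zero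
    (τ := τ') (ε := ε) hd hε0 (by linarith) hc1 (by linarith) (by linarith))).trans
    (dimH_mono (approxVectors_anti h1.le))

end FA.SimultaneousJarnik
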